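import Fermat.Agent.S13.LocMain
import Fermat.Agent.S13.LocE0
import Fermat.Agent.S13.LocE1
import Fermat.Agent.S13.LocBranch
import Fermat.Agent.S05.Fixes

/-!
# S44 / ESide / Peu / Abs : (G2), (G3), (G5) of the blueprint #1827, abstract form

`K` a field, `v` a valuation (MULTIPLICATIVE notation: `v x ≤ 1` = integral), `W : Affine K` a Weierstrass curve with `v`-integral
coefficients, `Centre W e κ β`: in `ξ = x - e`, `η = yc = 2y + a₁x + a₃` the curve is `η² = ξ (4 ξ² + β ξ + 4 κ)`;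
`v β = 1`, `v κ < 1` (multiplicative reduction, node at `ξ = 0`), `v 2 = 1`.
`InE1 v P : P = 0 ∨ 1 < v (xc P)`, `InE0 v e P : P = 0 ∨ 1 ≤ v (xc P - e)` (`S13/LocDefs.lean`).
`Inert v W σ s` : `σ` a field endomorphism preserving `v` and trivial on the residue field, `s` the induced map on points.

## `close_of_unit`  (TASK `S44/E-Peu-Close`, ~150 lines)
`X := xc T`, `v X > 1`.  By `S05.four_xc_add` (`P = R`, `Q = T`; `xc R ≠ xc T` because the valuations differ) and `S05.yc_sq`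
(`yc T ^ 2 = D2 W X = 4X³ + b₂X² + 2b₄X + b₆`, `yc R ^ 2 = D2 W (xc R)`):
  `4 (xc (R+T) - xc R) (xc R - X)² = - 2 yc R * yc T + [(2b₄ + 12 x² + 2 b₂ x) X + yc R ^ 2 + b₆ - (b₂ + 8x) x²]`,  `x = xc R`
(`linear_combination`).  `v (yc T)² = v X ³` (dominant term, `v 4 = 1`), so `v X < v (yc T)`; the bracket has `v ≤ v X`; `v (2 yc R yc T) = v (yc T)`.
Hence `v (xc (R+T) - xc R) * v X ² = v (yc T)`; square it and cancel `v X ³`.

## `Inert.node_close`  (TASK `S44/E-Peu-Node`, ~150 lines)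
`ξ = xc R - e`, `ξ' = σ ξ = xc (s R) - e`, `v ξ' = v ξ`, `τ := yc R / ξ`: `τ² = 4 ξ + β + 4 κ / ξ` (`yc_sq`, `Centre.D2_id`), so `v τ = 1`;
`σ τ = yc (s R) / ξ'` (`Inert.yc_map`), `v (σ τ - τ) < 1` (`Inert.close`), so `v (σ τ + τ) = v (2 τ + (σ τ - τ)) = 1`.
`xc (s R) ≠ xc R`: otherwise `s R = R` (excluded) or `s R = - R` (`eq_or_eq_neg_of_xc_eq`), then `σ τ = - τ` (`yc_neg`), contradiction.
`S13.Loc.Centre_xi_sub` (`P₁ = R`, `P₂ = s R`):  `4 ξ_T ξ ξ' (ξ' - ξ)² = (ξ ξ')² (σ τ + τ)²`.  Take `v`.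

## `T2p`  (TASK `S44/E-Peu-T2p`, ~100 lines)   copy of `S05.T2` (`S05/Core.lean`), where `hint` now comes from: `g • R ∉ E0` for `g ≠ 0`
(otherwise `R = g⁻¹ • (g • R) ∈ E0` by `inE0_nsmul`), so `v (ξ (g R)) < 1`.

## `val_yc_eq_one`  (same task `S44/E-Peu-T2p`, ~50 lines)
`v ξ = 1`; `v (yc R) ≤ 1` (`S05.v_yc_le_one`); if `< 1`: `S13.Loc.dbl_inE1` + `inE1_of_two_nsmul` give `R ∈ E1`.
-/

set_option autoImplicit false

namespace Fermat.Agent.S44.ESide

open WeierstrassCurve WeierstrassCurve.Affine Fermat.Agent.S05 Fermat.Agent.S13.Loc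

variable {K : Type*} [Field K] [DecidableEq K] {W : Affine K}
  {Γ₀ : Type*} [LinearOrderedCommGroupWithZero Γ₀] (v : Valuation K Γ₀) {e κ β : K}

omit [DecidableEq K] in
/-- the valuation estimates behind `close_of_unit`. -/
theorem Abs_close_aux {b₂ b₄ b₆ x X η Y Z : K} (hb₂ : v b₂ ≤ 1) (hb₄ : v b₄ ≤ 1) (hb₆ : v b₆ ≤ 1)
    (h2 : v (2 : K) = 1) (hx : v x ≤ 1) (hη : v η = 1) (hX : 1 < v X)
    (hY : Y ^ 2 = 4 * X ^ 3 + b₂ * X ^ 2 + 2 * b₄ * X + b₆)
    (hZ : 4 * (Z - x) * (x - X) ^ 2 = - (2 * η * Y)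
      + ((2 * b₄ + 12 * x ^ 2 + 2 * b₂ * x) * X + (η ^ 2 + b₆ - (b₂ + 8 * x) * x ^ 2))) :
    v (Z - x) ^ 2 * v X = 1 := by
  have hV0 : v X ≠ 0 := (zero_lt_one.trans hX).ne'
  have h4 : v (4 : K) = 1 := by
    have : (4 : K) = 2 * 2 := by norm_num
    rw [this, map_mul, h2, one_mul]
  have h12 : v (12 : K) ≤ 1 := by simpa using v_natCast_le_one v 12
  have h8 : v (8 : K) ≤ 1 := by simpa using v_natCast_le_one v 8
  have hx2 : v (x ^ 2) ≤ 1 := by rw [map_pow]; exact pow_le_one₀ zero_le hx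
  have hV12 : v X < v X ^ 2 := by
    calc v X = v X * 1 := (mul_one _).symm
      _ < v X * v X := mul_lt_mul_of_pos_left hX (zero_lt_iff.2 hV0)
      _ = v X ^ 2 := (sq _).symm
  have hV23 : v X ^ 2 < v X ^ 3 := by
    calc v X ^ 2 = v X ^ 2 * 1 := (mul_one _).symm
      _ < v X ^ 2 * v X := mul_lt_mul_of_pos_left hX (zero_lt_iff.2 (pow_ne_zero _ hV0))
      _ = v X ^ 3 := (pow_succ _ _).symm
  -- `v Y ^ 2 = v X ^ 3`
  have hY2 : v Y ^ 2 = v X ^ 3 := by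
    rw [← map_pow, hY]
    have t1 : v (4 * X ^ 3) = v X ^ 3 := by rw [map_mul, h4, one_mul, map_pow]
    have t2 : v (b₂ * X ^ 2) < v X ^ 3 := by
      rw [map_mul, map_pow]
      exact (mul_le_of_le_one_left zero_le hb₂).trans_lt hV23
    have t3 : v (2 * b₄ * X) < v X ^ 3 := by
      rw [map_mul, map_mul, h2, one_mul]
      exact (mul_le_of_le_one_left zero_le hb₄).trans_lt (hV12.trans hV23)
    have t4 : v b₆ < v X ^ 3 := hb₆.trans_lt (hX.trans (hV12.trans hV23))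
    have s1 : v (4 * X ^ 3 + b₂ * X ^ 2) = v X ^ 3 := by
      rw [Valuation.map_add_eq_of_lt_left v (by rw [t1]; exact t2), t1]
    have s2 : v (4 * X ^ 3 + b₂ * X ^ 2 + 2 * b₄ * X) = v X ^ 3 := by
      rw [Valuation.map_add_eq_of_lt_left v (by rw [s1]; exact t3), s1]
    rw [Valuation.map_add_eq_of_lt_left v (by rw [s2]; exact t4), s2]
  have hVY : v X < v Y := by
    refine lt_of_pow_lt_pow_left₀ 2 zero_le ?_
    rw [hY2]; exact hV23
  -- the bracket
  have hB1 : v (2 * b₄ + 12 * x ^ 2 + 2 * b₂ * x) ≤ 1 := by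
    refine (v.map_add _ _).trans (max_le ((v.map_add _ _).trans (max_le ?_ ?_)) ?_)
    · rw [map_mul, h2, one_mul]; exact hb₄
    · rw [map_mul]; exact mul_le_one₀ h12 zero_le hx2
    · rw [map_mul, map_mul, h2, one_mul]; exact mul_le_one₀ hb₂ zero_le hx
  have hB2 : v (η ^ 2 + b₆ - (b₂ + 8 * x) * x ^ 2) ≤ 1 := by
    refine (v.map_sub _ _).trans (max_le ((v.map_add _ _).trans (max_le ?_ hb₆)) ?_)
    · rw [map_pow, hη, one_pow]
    · rw [map_mul]
      refine mul_le_one₀ ((v.map_add _ _).trans (max_le hb₂ ?_)) zero_le hx2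
      rw [map_mul]; exact mul_le_one₀ h8 zero_le hx
  have hB : v ((2 * b₄ + 12 * x ^ 2 + 2 * b₂ * x) * X + (η ^ 2 + b₆ - (b₂ + 8 * x) * x ^ 2))
      ≤ v X := by
    refine (v.map_add _ _).trans (max_le ?_ (hB2.trans hX.le))
    rw [map_mul]
    exact mul_le_of_le_one_left zero_le hB1
  have hM : v (- (2 * η * Y)) = v Y := by
    rw [Valuation.map_neg, map_mul, map_mul, h2, hη, one_mul, one_mul]
  have hxX : v (x - X) = v X := by
    rw [Valuation.map_sub_eq_of_lt_right v (hx.trans_lt hX)]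
  have hmain : v (Z - x) * v X ^ 2 = v Y := by
    have := congrArg v hZ
    rw [Valuation.map_add_eq_of_lt_left v (by rw [hM]; exact hB.trans_lt hVY), hM, map_mul,
      map_mul, h4, one_mul, map_pow, hxX] at this
    exact this
  have hsq : (v (Z - x) ^ 2 * v X) * v X ^ 3 = 1 * v X ^ 3 := by
    have h5 : v X ^ 3 = v (Z - x) ^ 2 * (v X ^ 2) ^ 2 := by rw [← hY2, ← hmain, mul_pow]
    rw [one_mul, mul_assoc, ← pow_succ']
    conv_rhs => rw [h5]
    rw [← pow_mul]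
  exact mul_right_cancel₀ (pow_ne_zero _ hV0) hsq

/-- (G3) closeness: translating an integral point with unit `η` by a point of `E1`. -/
theorem close_of_unit (hb₂ : v W.b₂ ≤ 1) (hb₄ : v W.b₄ ≤ 1) (hb₆ : v W.b₆ ≤ 1)
    (h2 : v (2 : K) = 1) {R T : W.Point} (hR0 : R ≠ 0) (hxR : v (xc R) ≤ 1)
    (hηR : v (yc R) = 1) (hT1 : 1 < v (xc T)) :
    v (xc (R + T) - xc R) ^ 2 * v (xc T) = 1 := by
  have hT0 : T ≠ 0 := by
    rintro rfl
    rw [xc_zero, map_zero] at hT1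
    exact absurd hT1 (not_lt.2 zero_le)
  have hne : xc R ≠ xc T := by
    intro h
    rw [h] at hxR
    exact absurd hT1 (not_lt.2 hxR)
  have h1 := four_xc_add hR0 hT0 hne
  have h3 := yc_sq T hT0
  rw [D2] at h3
  refine Abs_close_aux v hb₂ hb₄ hb₆ h2 hxR hηR hT1 h3 ?_
  linear_combination h1 + h3

/-- (G2) near the node. -/
theorem Inert.node_close {σ : K →+* K} {s : W.Point →+ W.Point} (hI : Inert v W σ s)
    (hc : Centre W e κ β) (h2 : v (2 : K) = 1) (hσe : σ e = e) (hβ : v β = 1)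
    {R : W.Point} (hR : R ≠ 0) (h1 : v κ < v (xc R - e)) (h3 : v (xc R - e) < 1)
    (hsR : s R ≠ R) :
    v (σ (xc R - e) - (xc R - e)) ^ 2 * v (xc (s R - R) - e) = v (xc R - e) ^ 2 := by
  set ξ := xc R - e with hξ
  have hsR0 : s R ≠ 0 := hI.ne_zero R hR
  have hξ' : xc (s R) - e = σ ξ := by rw [hI.xc_map, hξ, map_sub, hσe]
  have ha0 : v ξ ≠ 0 := (lt_of_le_of_lt zero_le h1).ne'
  have hξ0 : ξ ≠ 0 := (v.ne_zero_iff).1 ha0
  have hσξ0 : σ ξ ≠ 0 := (map_ne_zero σ).2 hξ0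
  have h4 : v (4 : K) = 1 := by
    have e4 : (4 : K) = 2 * 2 := by norm_num
    rw [e4, map_mul, h2, one_mul]
  set τ := yc R / ξ with hτ
  have hτ2 : τ ^ 2 = β + (4 * ξ + 4 * κ / ξ) := by
    have e1 := yc_sq R hR
    rw [hc.D2_id] at e1
    rw [hτ, div_pow, e1]
    field_simp
    ring
  have hsmall : v (4 * ξ + 4 * κ / ξ) < 1 := by
    refine lt_of_le_of_lt (v.map_add _ _) (max_lt ?_ ?_)
    · rw [map_mul, h4, one_mul]
      exact h3
    · rw [map_div₀, map_mul, h4, one_mul]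
      exact (div_lt_one₀ (zero_lt_iff.2 ha0)).2 h1
  have hvτ : v τ = 1 := by
    have h5 : v (τ ^ 2) = 1 := by
      rw [hτ2, v.map_add_eq_of_lt_left (by rw [hβ]; exact hsmall), hβ]
    rw [map_pow] at h5
    exact (pow_left_inj₀ zero_le zero_le (by norm_num : (2 : ℕ) ≠ 0)).mp (by rw [h5, one_pow])
  have hστ : σ τ = yc (s R) / σ ξ := by rw [hτ, map_div₀, hI.yc_map]
  have hclose : v (σ τ - τ) < 1 := hI.close τ hvτ.le
  have hsum : v (σ τ + τ) = 1 := by
    have e5 : σ τ + τ = 2 * τ + (σ τ - τ) := by ring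
    rw [e5, v.map_add_eq_of_lt_left (by rw [map_mul, h2, hvτ, one_mul]; exact hclose), map_mul, h2,
      hvτ, one_mul]
  have hx : xc (s R) ≠ xc R := by
    intro hx
    rcases eq_or_eq_neg_of_xc_eq hsR0 hR hx with h | h
    · exact hsR h
    · have h5 : σ ξ = ξ := by rw [← hξ', hx]
      have h6 : σ τ + τ = 0 := by
        rw [hστ, h, yc_neg, h5, hτ]
        ring
      rw [h6, map_zero] at hsum
      exact zero_ne_one hsum
  have key := congrArg v (Centre_xi_sub hc hR hsR0 hx)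
  have e1 : yc (s R) * ξ + yc R * σ ξ = ξ * σ ξ * (σ τ + τ) := by
    rw [hστ, hτ]
    field_simp
  have e2 : xc (s R) - xc R = σ ξ - ξ := by
    rw [← hξ', hξ]
    ring
  rw [hξ', e1, e2] at key
  simp only [map_mul, map_pow, h4, hsum, hI.val, one_mul, mul_one] at key
  apply mul_right_cancel₀ (mul_ne_zero ha0 ha0)
  calc v (σ ξ - ξ) ^ 2 * v (xc (s R - R) - e) * (v ξ * v ξ)
      = v (xc (s R - R) - e) * (v ξ * v ξ) * v (σ ξ - ξ) ^ 2 := by
        rw [mul_comm (v (σ ξ - ξ) ^ 2), mul_right_comm]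
    _ = (v ξ * v ξ) ^ 2 := key
    _ = v ξ ^ 2 * (v ξ * v ξ) := by rw [sq, sq]

/-- `T2` at the residue characteristic, for points which do not lie in `E0`. -/
theorem T2p (hc : Centre W e κ β) (p : ℕ) [Fact p.Prime] (hp2 : p ≠ 2)
    (ν : Γ₀) (hν : ν < 1) (hν0 : ν ≠ 0) (hκ : v κ = ν ^ p) (hβ : v β = 1) (h2 : v (2 : K) = 1)
    (R : W.Point) (hR : p • R = 0) (hE0 : ¬ InE0 v e R) :
    v κ < v (xc R - e) ∧ v (xc R - e) < 1 ∧ ∃ j : ℕ, v (xc R - e) = ν ^ j := by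
  have hpP : p.Prime := Fact.out
  have hκ1 : v κ < 1 := by rw [hκ]; exact pow_lt_one₀ zero_le hν hpP.ne_zero
  have hR0 : R ≠ 0 := fun h => hE0 (Or.inl h)
  set φ := torsHom p R hR with hφ
  have hne : ∀ g, g ≠ 0 → φ g ≠ 0 := torsHom_ne_zero p R hR hR0
  have hnotE0 : ∀ g, g ≠ 0 → ¬ InE0 v e (φ g) := by
    intro g hg h
    apply hE0
    have h1 : (g⁻¹).val • g = 1 := by
      rw [nsmul_eq_mul, ZMod.natCast_zmod_val, inv_mul_cancel₀ hg]
    have h3 := inE0_nsmul v hc hκ1 hβ.le h (g⁻¹).val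
    rwa [← map_nsmul, h1, hφ, torsHom_one] at h3
  have hlt : ∀ g, g ≠ 0 → v (xc (φ g) - e) < 1 := by
    intro g hg
    by_contra h
    exact hnotE0 g hg (Or.inr (not_lt.mp h))
  have hxne : ∀ g h, g ≠ 0 → h ≠ 0 → g + h ≠ 0 → g - h ≠ 0 → xc (φ g) ≠ xc (φ h) := by
    intro g h hg hh hgh hgh'
    apply xc_ne_of_ne (hne g hg) (hne h hh)
    · intro h1
      apply hne _ hgh'
      rw [map_sub, h1, sub_self]
    · intro h1
      apply hne _ hgh
      rw [map_add, h1, neg_add_cancel]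
  have key := T2abs v p hp2 (fun g => xc (φ g) - e) κ β ν hν hν0 hκ hβ h2
    (fun g hg => (hlt g hg).le)
    (fun g => by simp only [map_neg, xc_neg])
    (fun g h hg hh hgh hgh' h1 => hxne g h hg hh hgh hgh' (sub_left_injective h1))
    (fun g h hg hh hgh hgh' => by
      simp only [map_add, map_sub]
      exact hc.xi_add_mul_sub (hne g hg) (hne h hh) (hxne g h hg hh hgh hgh'))
    (fun g hg => by
      simp only [map_add]
      apply hc.xi_dbl
      rw [← map_add]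
      apply hne
      intro h0
      apply hg
      have h3 : (2 : ZMod p) * g = 0 := by rw [two_mul]; exact h0
      rcases mul_eq_zero.mp h3 with h4 | h4
      · exfalso
        have h5 : ((2 : ℕ) : ZMod p) = 0 := by exact_mod_cast h4
        rw [ZMod.natCast_eq_zero_iff] at h5
        have := (Nat.prime_dvd_prime_iff_eq (Fact.out : p.Prime) Nat.prime_two).mp h5
        exact hp2 this
      · exact h4)
    1 one_ne_zero
  have key' : v (xc R - e) = 1 ∨
      (v κ < v (xc R - e) ∧ v (xc R - e) < 1 ∧ ∃ j : ℕ, v (xc R - e) = ν ^ j) := by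
    simpa only [hφ, torsHom_one] using key
  rcases key' with h | h
  · exfalso
    have h3 := hlt 1 one_ne_zero
    rw [hφ, torsHom_one, h] at h3
    exact lt_irrefl _ h3
  · exact h

theorem val_yc_eq_one (hc : Centre W e κ β)
    (hb₂ : v W.b₂ ≤ 1) (hb₄ : v W.b₄ ≤ 1) (hb₆ : v W.b₆ ≤ 1) (hb₈ : v W.b₈ ≤ 1)
    (he : v e ≤ 1) (hκ : v κ < 1) {n : ℕ} (hn : Odd n) {R : W.Point} (hR : n • R = 0)
    (h0 : InE0 v e R) (h1 : ¬ InE1 v R) : v (yc R) = 1 := by
  have hR0 : R ≠ 0 := fun h => h1 (Or.inl h)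
  have hx : v (xc R) ≤ 1 := by
    by_contra h
    exact h1 (Or.inr (not_le.mp h))
  have hξ : v (xc R - e) = 1 := le_antisymm (v.map_sub_le hx he) (h0.resolve_left hR0)
  have hle := v_yc_le_one v hb₂ hb₄ hb₆ hx
  by_contra hne
  have hlt : v (yc R) < 1 := lt_of_le_of_ne hle hne
  have hu : v ((xc R - e) ^ 2 - κ) = 1 := by
    have h3 : v ((xc R - e) ^ 2) = 1 := by rw [map_pow, hξ, one_pow]
    rw [← h3]
    apply v.map_sub_eq_of_lt_left
    rw [h3]
    exact hκ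
  exact h1 (inE1_of_two_nsmul v hb₂ hb₄ hb₆ hb₈ hn hR (dbl_inE1 v hc he hR0 hlt hu))

end Fermat.Agent.S44.ESide
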