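import Fermat.Agent.S13.LocE1
import Fermat.Agent.S13.Ladder
import Fermat.Agent.S13.LadderApp

/-!
# S44 / ESide / Peu / Tors : (G4) the torsion bound, and (G1') `E[p] ⊄ E1`

`K` algebraically closed, `v` a valuation, `W` with `v`-integral `b₂ b₄ b₆ b₈`, `Δ ≠ 0`, `p = 2m+1` an odd prime, `(p : K) ≠ 0`.
`N := S13.Ladder.divD W m` is the `p`-division polynomial: integral coefficients (`coeff_divD_mem` with `S := v.integer`), leading coefficient `-p`
(`leadingCoeff_divD`), `N (xc P) = 0 ↔ p • P = 0` for `P ≠ 0` (`divD_eval_eq_zero_iff`).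

## `val_xc_nsmul`  (TASK `S44/E-Peu-Filt`, ~120 lines)
`t := wc T = (xc T)⁻¹`, `v t < 1`.  The induction `key` inside the proof of `S05.T1` (`S05/T1.lean`; it does NOT use `hn`) shows
`v (wc (k • T) - k² t) ≤ v t ^ 2` for all `k`.  Copy it.  If `v k = 1`: `v (k² t) = v t > v t ^ 2`, so `v (wc (k • T)) = v t`.

## `torsion_bound`  (TASK `S44/E-Peu-Tors`, ~200 lines; model: `S13.Ladder.one_lt_val_eval_zero` in `S13/LadderApp.lean`)
`S := {xc (i • T) : 1 ≤ i ≤ m}`: `m` DISTINCT roots of `N` (`i T ≠ ± j T`: `xc_ne_of_ne`; `(i ∓ j) • T = 0` with `0 < i ∓ j < p` and `p • T = 0` gives `T = 0` by Bezout),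
each of value `v (xc T) > 1` (`val_xc_nsmul`, `hunit`).
`N = C (-p) * ∏_{r ∈ N.roots} (X - C r)` (`IsAlgClosed.splits`, `Polynomial.eq_prod_roots_of_splits_id`).  Choose `x₀` by `hinf` for the Finset `N.roots.toFinset`:
`v (x₀ - r) = 1` if `v r ≤ 1`, `v (x₀ - r) = v r` if `v r > 1`; all factors are `≥ 1`.  So
`1 ≥ v (N.eval x₀) = v p * ∏_{r ∈ roots} v (x₀ - r) ≥ v p * ∏_{r ∈ S} v r = v p * v (xc T) ^ m`  (`S.val ≤ N.roots`: `Multiset.le_iff_subset` for a nodup multiset).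
`v (N.eval x₀) ≤ 1`: integral coefficients, `v x₀ ≤ 1` (`Polynomial.eval_eq_sum_range`, `Valuation.map_sum_le`).

## `exists_not_inE1`  (TASK `S44/E-Peu-Proper`, ~200 lines; model: `S13.Ladder.exists_integral_torsion`, same file)
By contradiction all nonzero `p`-torsion points have `1 < v (xc ·)`; so all roots of `N` have `v > 1` (`exists_point_xc`, `divD_eval_eq_zero_iff`).
`s := image xc (L \ {0})` (a Finset: `finite_torsionBy_set`/`exists_finset_torsion`), `r₀ := xc R₀`, `R₀ ∉ L` (`r₀ ∉ s`: `eq_or_eq_neg_of_xc_eq`, `L` is a subgroup).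
`π := ∏_{r ∈ s} r` has `v π > 1` (`s ≠ ∅`), so `1 ≤ v p * v π` by `hprod`; `one_lt_val_eval_zero` gives `1 < v (N.eval 0)`, but `N.eval 0 = N.coeff 0` is integral.
-/

set_option autoImplicit false

namespace Fermat.Agent.S44.ESide

open WeierstrassCurve WeierstrassCurve.Affine Fermat.Agent.S05 Fermat.Agent.S13.Loc

variable {K : Type*} [Field K] [DecidableEq K] {W : Affine K}
  {Γ₀ : Type*} [LinearOrderedCommGroupWithZero Γ₀] (v : Valuation K Γ₀)

/-- the filtration of `E1`: multiplication by a unit integer preserves `v (x)`. -/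
theorem val_xc_nsmul (hb₂ : v W.b₂ ≤ 1) (hb₄ : v W.b₄ ≤ 1) (hb₆ : v W.b₆ ≤ 1) (hb₈ : v W.b₈ ≤ 1)
    {T : W.Point} (hT1 : 1 < v (xc T)) (k : ℕ) (hk : v (k : K) = 1) :
    v (xc (k • T)) = v (xc T) := by
  have hx0 : xc T ≠ 0 := by
    intro h; rw [h, map_zero] at hT1; exact not_lt.mpr zero_le hT1
  set t := wc T with ht
  have hvt : v t < 1 := by
    rw [ht, wc, map_inv₀]; exact inv_lt_one_of_one_lt₀ hT1
  have ht0 : v t ≠ 0 := by
    rw [ht, wc, map_inv₀]; exact inv_ne_zero ((v.ne_zero_iff).mpr hx0)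
  have hsq : v t ^ 2 ≤ v t := by
    rw [sq]; calc v t * v t ≤ 1 * v t := mul_le_mul_left hvt.le _
      _ = v t := one_mul _
  have key : ∀ k : ℕ,
      ((k • T = 0 ∨ xc (k • T) ≠ 0) ∧ v (wc (k • T) - (k : K) ^ 2 * t) ≤ v t ^ 2) ∧
      (((k + 1) • T = 0 ∨ xc ((k + 1) • T) ≠ 0) ∧
        v (wc ((k + 1) • T) - ((k + 1 : ℕ) : K) ^ 2 * t) ≤ v t ^ 2) := by
    intro k
    induction k with
    | zero =>
      refine ⟨⟨Or.inl (zero_smul _ _), by simp⟩, ⟨Or.inr (by simpa using hx0), by simp [ht]⟩⟩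
    | succ k ih =>
      obtain ⟨⟨h0a, h0b⟩, ⟨h1a, h1b⟩⟩ := ih
      refine ⟨⟨h1a, h1b⟩, ?_⟩
      set R := (k + 1) • T with hR
      have hRP : (k + 1 + 1) • T = R + T := by rw [hR, succ_nsmul]
      have hRP' : k • T = R - T := by rw [hR, succ_nsmul]; abel
      have hs : v (wc R) ≤ v t := by
        have : wc R = (wc R - ((k + 1 : ℕ) : K) ^ 2 * t) + ((k + 1 : ℕ) : K) ^ 2 * t := by ring
        rw [this]
        refine v.map_add_le (h1b.trans hsq) ?_
        rw [map_mul, map_pow]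
        calc v ((k + 1 : ℕ) : K) ^ 2 * v t ≤ 1 * v t :=
              mul_le_mul_left (pow_le_one₀ zero_le (v_natCast_le_one v _)) _
          _ = v t := one_mul _
      have hU1 := v_U0_sub_one (W := W) v hb₄ hb₆ hb₈ hs hvt
      have hlt1 : v t ^ 2 < 1 := pow_lt_one₀ zero_le hvt (by norm_num)
      have hU : U0 W (wc R) t ≠ 0 := by
        intro h0
        rw [h0, zero_sub, Valuation.map_neg, map_one] at hU1
        exact absurd hU1 (not_le.mpr hlt1)
      obtain ⟨ha, -, hc⟩ := wc_add_sub h1a hx0 hU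
      have hest := v_est v hb₂ hb₄ hb₆ hb₈ hs hvt hc
      rw [hRP]
      refine ⟨ha, ?_⟩
      have e : wc (R + T) - ((k + 1 + 1 : ℕ) : K) ^ 2 * t =
          (wc (R + T) + wc (R - T) - 2 * wc R - 2 * t) - (wc (R - T) - (k : K) ^ 2 * t)
            + 2 * (wc R - ((k + 1 : ℕ) : K) ^ 2 * t) := by
        push_cast; ring
      rw [e]
      refine v.map_add_le (v.map_sub_le hest (hRP' ▸ h0b)) ?_
      rw [map_mul]
      calc v (2 : K) * v (wc R - ((k + 1 : ℕ) : K) ^ 2 * t) ≤ 1 * v t ^ 2 :=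
            mul_le_mul' (by simpa using v_natCast_le_one v 2) h1b
        _ = v t ^ 2 := one_mul _
  have h := (key k).1.2
  have hlt : v t ^ 2 < v t := by
    rw [sq]
    calc v t * v t < 1 * v t := mul_lt_mul_of_pos_right hvt (zero_lt_iff.mpr ht0)
      _ = v t := one_mul _
  have hkt : v ((k : K) ^ 2 * t) = v t := by
    rw [map_mul, map_pow, hk, one_pow, one_mul]
  have hw : v (wc (k • T)) = v t := by
    have e : wc (k • T) = (k : K) ^ 2 * t + (wc (k • T) - (k : K) ^ 2 * t) := by ring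
    rw [e, ← hkt]
    exact Valuation.map_add_eq_of_lt_left v (by rw [hkt]; exact lt_of_le_of_lt h hlt)
  rw [wc, ht, wc, map_inv₀, map_inv₀] at hw
  exact inv_injective hw

/-- (G4) -/
theorem torsion_bound [IsAlgClosed K] (hΔ : W.Δ ≠ 0)
    (hb₂ : v W.b₂ ≤ 1) (hb₄ : v W.b₄ ≤ 1) (hb₆ : v W.b₆ ≤ 1) (hb₈ : v W.b₈ ≤ 1)
    {p : ℕ} (hp : p.Prime) (hp2 : p ≠ 2) (hpK : (p : K) ≠ 0)
    (hunit : ∀ k : ℕ, ¬ p ∣ k → v (k : K) = 1)
    (hinf : ∀ S : Finset K, ∃ x₀ : K, v x₀ ≤ 1 ∧ ∀ r ∈ S, v r ≤ 1 → v (x₀ - r) = 1)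
    {T : W.Point} (hT : p • T = 0) (hT1 : 1 < v (xc T)) :
    v (p : K) * v (xc T) ^ ((p - 1) / 2) ≤ 1 := by
  have : Fact p.Prime := ⟨hp⟩
  obtain ⟨m, hm⟩ : ∃ m, p = 2 * m + 1 := hp.odd_of_ne_two hp2
  have hm1 : 1 ≤ m := by
    have := hp.two_le
    omega
  have hm' : (p - 1) / 2 = m := by omega
  rw [hm']
  have hpK' : ((2 * m + 1 : ℕ) : K) ≠ 0 := by rw [← hm]; exact hpK
  have hT0 : T ≠ 0 := by
    rintro rfl
    rw [xc_zero, map_zero] at hT1
    exact absurd hT1 (not_lt.2 zero_le_one)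
  have hord : addOrderOf T = p := addOrderOf_eq_prime hT hT0
  have hne : ∀ k : ℕ, ¬ p ∣ k → k • T ≠ 0 := by
    intro k hk h0
    rw [← addOrderOf_dvd_iff_nsmul_eq_zero, hord] at h0
    exact hk h0
  have hnd : ∀ i ∈ Finset.Icc 1 m, ¬ p ∣ i := by
    intro i hi hd
    rw [Finset.mem_Icc] at hi
    have := Nat.le_of_dvd (by omega) hd
    omega
  set N := Fermat.Agent.S13.Ladder.divD W m with hN
  have hN0 : N ≠ 0 := Fermat.Agent.S13.Ladder.divD_ne_zero hm1 hpK'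
  set S : Finset K := (Finset.Icc 1 m).image (fun i => xc (i • T)) with hS
  have hinj : Set.InjOn (fun i : ℕ => xc (i • T)) (Finset.Icc 1 m : Finset ℕ) := by
    intro i hi j hj hij
    have hi' := Finset.mem_Icc.1 (Finset.mem_coe.1 hi)
    have hj' := Finset.mem_Icc.1 (Finset.mem_coe.1 hj)
    rcases eq_or_eq_neg_of_xc_eq (hne i (hnd i hi)) (hne j (hnd j hj)) hij with h1 | h1
    · rw [nsmul_eq_nsmul_iff_modEq, hord] at h1
      exact h1.eq_of_lt_of_lt (by omega) (by omega)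
    · exfalso
      have h2 : (i + j) • T = 0 := by rw [add_smul, h1, neg_add_cancel]
      refine hne (i + j) (fun hd => ?_) h2
      have := Nat.le_of_dvd (by omega) hd
      omega
  have hcard : S.card = m := by
    rw [hS, Finset.card_image_of_injOn hinj, Nat.card_Icc]
    omega
  have hSroot : ∀ r ∈ S, r ∈ N.roots := by
    intro r hr
    obtain ⟨i, hi, rfl⟩ := Finset.mem_image.1 hr
    rw [Polynomial.mem_roots hN0, Polynomial.IsRoot.def,
      Fermat.Agent.S13.Ladder.divD_eval_eq_zero_iff hΔ hm1 (hne i (hnd i hi)), ← hm, smul_comm, hT,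
      smul_zero]
  have hSval : ∀ r ∈ S, v r = v (xc T) := by
    intro r hr
    obtain ⟨i, hi, rfl⟩ := Finset.mem_image.1 hr
    exact val_xc_nsmul v hb₂ hb₄ hb₆ hb₈ hT1 i (hunit i (hnd i hi))
  obtain ⟨x₀, hx₀, hx₀r⟩ := hinf N.roots.toFinset
  -- integrality of `N.eval x₀`
  have hint : v (N.eval x₀) ≤ 1 := by
    rw [← Valuation.mem_integer_iff, Polynomial.eval_eq_sum_range]
    refine Subring.sum_mem _ fun i _ => ?_
    refine Subring.mul_mem _ ?_ (Subring.pow_mem _ ((Valuation.mem_integer_iff v _).2 hx₀) _)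
    exact Fermat.Agent.S13.Ladder.coeff_divD_mem W v.integer ((Valuation.mem_integer_iff v _).2 hb₂)
      ((Valuation.mem_integer_iff v _).2 hb₄) ((Valuation.mem_integer_iff v _).2 hb₆)
      ((Valuation.mem_integer_iff v _).2 hb₈) m i
  have hsplit : N.Splits := IsAlgClosed.splits N
  have hle : S.val ≤ N.roots := by
    rw [Finset.val_le_iff_val_subset]
    intro r hr
    exact hSroot r (by rwa [Finset.mem_val] at hr)
  obtain ⟨u, hu⟩ := Multiset.le_iff_exists_add.mp hle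
  have hfac : ∀ r ∈ N.roots, 1 ≤ v (x₀ - r) := by
    intro r hr
    rcases le_or_gt (v r) 1 with h1 | h1
    · exact (hx₀r r (Multiset.mem_toFinset.2 hr) h1).ge
    · rw [Valuation.map_sub_eq_of_lt_right v (hx₀.trans_lt h1)]
      exact h1.le
  have hu1 : 1 ≤ (u.map (fun r => v (x₀ - r))).prod := by
    apply Multiset.one_le_prod_of_one_le
    intro y hy
    obtain ⟨r, hr, rfl⟩ := Multiset.mem_map.mp hy
    exact hfac r (by rw [hu]; exact Multiset.mem_add.mpr (Or.inr hr))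
  have e2 : (S.val.map (fun r => v (x₀ - r))).prod = v (xc T) ^ m := by
    change ∏ r ∈ S, v (x₀ - r) = _
    rw [Finset.prod_congr rfl (fun r hr => by
      rw [Valuation.map_sub_eq_of_lt_right v (by rw [hSval r hr]; exact hx₀.trans_lt hT1),
        hSval r hr]), Finset.prod_const, hcard]
  have hlc : v N.leadingCoeff = v (p : K) := by
    rw [hN, Fermat.Agent.S13.Ladder.leadingCoeff_divD hm1 hpK', Valuation.map_neg, ← hm]
  rw [hsplit.eval_eq_prod_roots, map_mul, map_multiset_prod, Multiset.map_map, hlc] at hint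
  have e3 : (N.roots.map (⇑v ∘ fun r => x₀ - r)).prod
      = v (xc T) ^ m * (u.map (fun r => v (x₀ - r))).prod := by
    rw [← e2, ← Multiset.prod_add, ← Multiset.map_add, ← hu]
    rfl
  rw [e3] at hint
  calc v (p : K) * v (xc T) ^ m ≤ v (p : K) * v (xc T) ^ m * (u.map (fun r => v (x₀ - r))).prod :=
        le_mul_of_one_le_right' hu1
    _ = v (p : K) * (v (xc T) ^ m * (u.map (fun r => v (x₀ - r))).prod) := mul_assoc _ _ _
    _ ≤ 1 := hint

/-- (G1') -/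
theorem exists_not_inE1 [IsAlgClosed K] (hΔ : W.Δ ≠ 0)
    (hb₂ : v W.b₂ ≤ 1) (hb₄ : v W.b₄ ≤ 1) (hb₆ : v W.b₆ ≤ 1) (hb₈ : v W.b₈ ≤ 1)
    {p : ℕ} (hp : p.Prime) (hp2 : p ≠ 2) (hpK : (p : K) ≠ 0)
    (L : AddSubgroup W.Point) (hLp : ∀ R ∈ L, p • R = 0) (hL0 : ∃ R ∈ L, R ≠ 0)
    (hL1 : ∃ R : W.Point, p • R = 0 ∧ R ∉ L)
    (hprod : ∀ s : Finset K, (∀ r : K, r ∈ s ↔ ∃ R ∈ L, R ≠ 0 ∧ xc R = r) →
      1 < v (∏ r ∈ s, r) → 1 ≤ v (p : K) * v (∏ r ∈ s, r)) :
    ∃ R : W.Point, p • R = 0 ∧ ¬ InE1 v R := by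
  classical
  by_contra hcon
  push Not at hcon
  have hodd : Odd p := hp.odd_of_ne_two hp2
  have h3 : 3 ≤ p := by
    have := hp.two_le
    omega
  obtain ⟨m, hm⟩ := hodd
  have hm1 : 1 ≤ m := by omega
  have hpK' : ((2 * m + 1 : ℕ) : K) ≠ 0 := by rw [← hm]; exact hpK
  set f : Polynomial K := S13.Ladder.divD W m with hf
  have hf0 : f ≠ 0 := S13.Ladder.divD_ne_zero hm1 hpK'
  have hval : ∀ x : W.Point, p • x = 0 → x ≠ 0 → 1 < v (xc x) := fun x hx hx0 =>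
    (hcon x hx).resolve_left hx0
  have hroot : ∀ x : W.Point, p • x = 0 → x ≠ 0 → xc x ∈ f.roots := by
    intro x hx hx0
    refine (Polynomial.mem_roots hf0).mpr ((S13.Ladder.divD_eval_eq_zero_iff hΔ hm1 hx0).mpr ?_)
    rw [← hm]
    exact hx
  have hroots : ∀ r, f.IsRoot r → 1 < v r := by
    intro r hr
    obtain ⟨P, hP0, rfl⟩ := S13.Ladder.exists_point_xc hΔ r
    have hP : (2 * m + 1) • P = 0 := (S13.Ladder.divD_eval_eq_zero_iff hΔ hm1 hP0).mp hr
    rw [← hm] at hP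
    exact hval P hP hP0
  -- the finite set of x-coordinates of `L \ 0`
  obtain ⟨S0, -, hS0⟩ := S13.Ladder.exists_finset_torsion (W := W) hΔ hm1 hpK'
  let s : Finset K := (S0.filter (fun R => R ∈ L ∧ R ≠ 0)).image xc
  have mem_s : ∀ r, r ∈ s ↔ ∃ R ∈ L, R ≠ 0 ∧ xc R = r := by
    intro r
    simp only [s, Finset.mem_image, Finset.mem_filter]
    constructor
    · rintro ⟨R, ⟨-, hRL, hR0⟩, rfl⟩
      exact ⟨R, hRL, hR0, rfl⟩
    · rintro ⟨R, hRL, hR0, rfl⟩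
      exact ⟨R, ⟨hS0 R (by rw [← hm]; exact hLp R hRL), hRL, hR0⟩, rfl⟩
  have hs : ∀ r ∈ s, r ∈ f.roots := by
    intro r hr
    obtain ⟨x, hxL, hx0, rfl⟩ := (mem_s r).mp hr
    exact hroot x (hLp x hxL) hx0
  obtain ⟨Q, hQp, hQ⟩ := hL1
  have hQ0 : Q ≠ 0 := fun h => hQ (h ▸ L.zero_mem)
  have hQs : xc Q ∉ s := by
    intro h
    obtain ⟨x, hxL, hx0, hx⟩ := (mem_s _).mp h
    rcases eq_or_eq_neg_of_xc_eq hx0 hQ0 hx with h1 | h1
    · exact hQ (h1 ▸ hxL)
    · have : Q = -x := by rw [h1, neg_neg]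
      exact hQ (this ▸ L.neg_mem hxL)
  obtain ⟨x₁, hx₁L, hx₁0⟩ := hL0
  have hr₁ : xc x₁ ∈ s := (mem_s _).mpr ⟨x₁, hx₁L, hx₁0, rfl⟩
  have hR : 1 < v (∏ r ∈ s, r) := by
    rw [map_prod, ← Finset.mul_prod_erase s _ hr₁]
    refine lt_of_lt_of_le (hval x₁ (hLp x₁ hx₁L) hx₁0) (le_mul_of_one_le_right' ?_)
    apply Finset.one_le_prod'
    intro r hr
    exact (hroots r (Polynomial.isRoot_of_mem_roots (hs r (Finset.mem_of_mem_erase hr)))).le
  have hprod' : 1 ≤ v f.leadingCoeff * v (∏ r ∈ s, r) := by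
    rw [hf, S13.Ladder.leadingCoeff_divD hm1 hpK', Valuation.map_neg, ← hm]
    exact hprod s mem_s hR
  have hfin := S13.Ladder.one_lt_val_eval_zero v f hroots s hs _ (hroot Q hQp hQ0) hQs hprod'
  rw [← Polynomial.coeff_zero_eq_eval_zero] at hfin
  have hmem : f.coeff 0 ∈ v.integer :=
    S13.Ladder.coeff_divD_mem W v.integer hb₂ hb₄ hb₆ hb₈ m 0
  exact absurd hfin (not_lt.mpr hmem)

end Fermat.Agent.S44.ESide
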