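import Fermat.Agent.S44.ESide.Peu.Abs
import Fermat.Agent.S44.ESide.Peu.Tors

/-!
# S44 / ESide / Peu / Core : abstract form of E-PEU (assembly of `Abs.lean` and `Tors.lean`)
-/

set_option autoImplicit false

namespace Fermat.Agent.S44.ESide

open WeierstrassCurve WeierstrassCurve.Affine Fermat.Agent.S05 Fermat.Agent.S13.Loc

variable {K : Type*} [Field K] [DecidableEq K] {W : Affine K}
  {Γ₀ : Type*} [LinearOrderedCommGroupWithZero Γ₀] (v : Valuation K Γ₀) {e κ β : K}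

/-- (G2) + (G3) + (G5): an inertial `σ` moving a `p`-torsion point `R ∉ E1` moves an explicit
integral function of `R` by exactly `v (x_T)^(-1/2)`, `T = s R - R ∈ E1`. -/
theorem peu_core (hc : Centre W e κ β)
    (ha₁ : v W.a₁ ≤ 1) (ha₂ : v W.a₂ ≤ 1) (ha₃ : v W.a₃ ≤ 1) (ha₄ : v W.a₄ ≤ 1)
    (ha₆ : v W.a₆ ≤ 1) (he : v e ≤ 1) (hβ : v β = 1) (h2 : v (2 : K) = 1)
    (p : ℕ) [Fact p.Prime] (hp2 : p ≠ 2) (c₁ : K) (hc₁0 : c₁ ≠ 0) (hc₁ : v c₁ < 1)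
    (hκ : v κ = v c₁ ^ p)
    {σ : K →+* K} {s : W.Point →+ W.Point} (hI : Inert v W σ s) (hσe : σ e = e)
    (hσc : σ c₁ = c₁)
    {R : W.Point} (hR : p • R = 0) (hR1 : ¬ InE1 v R) (hsR : s R ≠ R) :
    ∃ a : K, v a ≤ 1 ∧ (a = xc R ∨ ∃ j : ℕ, a = (xc R - e) / c₁ ^ j) ∧
      1 < v (xc (s R - R)) ∧ v (σ a - a) ^ 2 * v (xc (s R - R)) = 1 := by
  have hp : p.Prime := Fact.out
  have hodd : Odd p := hp.odd_of_ne_two hp2
  have hκ1 : v κ < 1 := by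
    rw [hκ]; exact pow_lt_one₀ zero_le hc₁ hp.ne_zero
  have hb₂ := v_b₂_le v ha₁ ha₂
  have hb₄ := v_b₄_le v ha₁ ha₃ ha₄
  have hb₆ := v_b₆_le v ha₃ ha₆
  have hb₈ := v_b₈_le v ha₁ ha₂ ha₃ ha₄ ha₆
  have hR0 : R ≠ 0 := fun h => hR1 (Or.inl h)
  have hxR : v (xc R) ≤ 1 := by
    by_contra h
    exact hR1 (Or.inr (not_le.mp h))
  have hT0 : s R - R ≠ 0 := sub_ne_zero.mpr hsR
  by_cases h0 : InE0 v e R
  · -- `R ∈ E0 \ E1`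
    have hT : InE1 v (s R - R) :=
      hI.sub_inE1_of_inE0 v hc ha₁ ha₂ ha₃ ha₄ ha₆ he hκ1 hodd hR h0
    have hT1 : 1 < v (xc (s R - R)) := hT.resolve_left hT0
    have hη := val_yc_eq_one v hc hb₂ hb₄ hb₆ hb₈ he hκ1 hodd hR h0 hR1
    refine ⟨xc R, hxR, Or.inl rfl, hT1, ?_⟩
    have h := close_of_unit v hb₂ hb₄ hb₆ h2 hR0 hxR hη hT1
    rwa [add_sub_cancel, hI.xc_map] at h
  · -- `R ∉ E0`
    have hν0 : v c₁ ≠ 0 := (v.ne_zero_iff).mpr hc₁0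
    obtain ⟨h1, h3, j, hj⟩ := T2p v hc p hp2 (v c₁) hc₁ hν0 hκ hβ h2 R hR h0
    have hcj0 : c₁ ^ j ≠ 0 := pow_ne_zero j hc₁0
    have hvcj0 : v (c₁ ^ j) ≠ 0 := (v.ne_zero_iff).mpr hcj0
    have hva : v ((xc R - e) / c₁ ^ j) = 1 := by
      rw [map_div₀, map_pow, hj, div_self (pow_ne_zero j hν0)]
    have hσa : σ ((xc R - e) / c₁ ^ j) - (xc R - e) / c₁ ^ j
        = (σ (xc R - e) - (xc R - e)) / c₁ ^ j := by
      rw [map_div₀, map_pow, hσc, ← sub_div]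
    have hnode := Inert.node_close v hI hc h2 hσe hβ hR0 h1 h3 hsR
    have hkey : v (σ ((xc R - e) / c₁ ^ j) - (xc R - e) / c₁ ^ j) ^ 2 * v (xc (s R - R) - e)
        = 1 := by
      rw [hσa, map_div₀, div_pow, div_mul_eq_mul_div, hnode, map_pow, hj,
        div_self (pow_ne_zero 2 (pow_ne_zero j hν0))]
    have hclose : v (σ ((xc R - e) / c₁ ^ j) - (xc R - e) / c₁ ^ j) < 1 :=
      hI.close _ hva.le
    have hξT : 1 < v (xc (s R - R) - e) := by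
      by_contra hle
      rw [not_lt] at hle
      have : v (σ ((xc R - e) / c₁ ^ j) - (xc R - e) / c₁ ^ j) ^ 2 * v (xc (s R - R) - e) < 1 :=
        mul_lt_one_of_lt_of_le (pow_lt_one₀ zero_le hclose (by norm_num)) hle
      rw [hkey] at this
      exact lt_irrefl _ this
    have hxT : v (xc (s R - R)) = v (xc (s R - R) - e) := by
      have e1 : xc (s R - R) = (xc (s R - R) - e) + e := by ring
      conv_lhs => rw [e1]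
      exact v.map_add_eq_of_lt_left (lt_of_le_of_lt he hξT)
    refine ⟨(xc R - e) / c₁ ^ j, hva.le, Or.inr ⟨j, rfl⟩, by rw [hxT]; exact hξT, ?_⟩
    rw [hxT]; exact hkey

/-- abstract E-PEU. -/
theorem peu_abs [IsAlgClosed K] (hΔ : W.Δ ≠ 0) (hc : Centre W e κ β)
    (ha₁ : v W.a₁ ≤ 1) (ha₂ : v W.a₂ ≤ 1) (ha₃ : v W.a₃ ≤ 1) (ha₄ : v W.a₄ ≤ 1)
    (ha₆ : v W.a₆ ≤ 1) (he : v e ≤ 1) (hβ : v β = 1) (h2 : v (2 : K) = 1)
    (p : ℕ) [Fact p.Prime] (hp2 : p ≠ 2) (hpK : (p : K) ≠ 0)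
    (hunit : ∀ k : ℕ, ¬ p ∣ k → v (k : K) = 1)
    (hinf : ∀ S : Finset K, ∃ x₀ : K, v x₀ ≤ 1 ∧ ∀ r ∈ S, v r ≤ 1 → v (x₀ - r) = 1)
    (c₁ : K) (hc₁0 : c₁ ≠ 0) (hc₁ : v c₁ < 1) (hκ : v κ = v c₁ ^ p)
    {σ : K →+* K} {s : W.Point →+ W.Point} (hI : Inert v W σ s) (hσe : σ e = e)
    (hσc : σ c₁ = c₁)
    {R : W.Point} (hR : p • R = 0) (hR1 : ¬ InE1 v R) (hsR : s R ≠ R) :
    ∃ a : K, v a ≤ 1 ∧ (a = xc R ∨ ∃ j : ℕ, a = (xc R - e) / c₁ ^ j) ∧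
      v (p : K) ≤ v (σ a - a) ^ (p - 1) := by
  have hp : p.Prime := Fact.out
  obtain ⟨a, ha, hform, hT1, hkey⟩ := peu_core v hc ha₁ ha₂ ha₃ ha₄ ha₆ he hβ h2 p hp2 c₁ hc₁0
    hc₁ hκ hI hσe hσc hR hR1 hsR
  refine ⟨a, ha, hform, ?_⟩
  have hb₂ := v_b₂_le v ha₁ ha₂
  have hb₄ := v_b₄_le v ha₁ ha₃ ha₄
  have hb₆ := v_b₆_le v ha₃ ha₆
  have hb₈ := v_b₈_le v ha₁ ha₂ ha₃ ha₄ ha₆
  have hTp : p • (s R - R) = 0 := by
    rw [smul_sub, ← map_nsmul, hR, map_zero, sub_zero]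
  have hb := torsion_bound v hΔ hb₂ hb₄ hb₆ hb₈ hp hp2 hpK hunit hinf hTp hT1
  obtain ⟨m, hm⟩ := hp.odd_of_ne_two hp2
  have hm1 : (p - 1) / 2 = m := by omega
  have hm2 : p - 1 = 2 * m := by omega
  rw [hm1] at hb
  rw [hm2, pow_mul]
  have hx0 : v (xc (s R - R)) ^ m ≠ 0 := pow_ne_zero m (ne_of_gt (lt_trans zero_lt_one hT1))
  have h1 : (v (σ a - a) ^ 2) ^ m * v (xc (s R - R)) ^ m = 1 := by
    rw [← mul_pow, hkey, one_pow]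
  calc v (p : K) = v (p : K) * ((v (σ a - a) ^ 2) ^ m * v (xc (s R - R)) ^ m) := by
        rw [h1, mul_one]
    _ = (v (p : K) * v (xc (s R - R)) ^ m) * (v (σ a - a) ^ 2) ^ m := by
        rw [mul_assoc, mul_comm ((v (σ a - a) ^ 2) ^ m)]
    _ ≤ 1 * (v (σ a - a) ^ 2) ^ m := by gcongr
    _ = (v (σ a - a) ^ 2) ^ m := one_mul _

end Fermat.Agent.S44.ESide
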