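import Fermat.Agent.S44.ESide.Peu.Tors
import Fermat.Agent.S44.ESide.VG
import Fermat.Agent.S13.LocFrey
import Fermat.Agent.S13.LocAssembly

/-!
# S44 / ESide / Peu / Moved : a `p`-torsion point outside `E1` moved by `s₁`   (TASK `S44/E-Frey-Moved`)
-/

set_option autoImplicit false

namespace Fermat.Agent.S44.ESide

open WeierstrassCurve WeierstrassCurve.Affine WeierstrassCurve.Affine.Point
open Fermat.Agent.S05 Fermat.Agent.S13.Loc
open Fermat.Agent.S13 (Qb GQ FreyV)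

/-- an endomorphism of order dividing `p` of a nonzero `𝔽_p`-vector space has a nonzero fixed vector. -/
theorem Moved_exists_fixed {p : ℕ} [Fact p.Prime] {V : Type*} [AddCommGroup V] [Module (ZMod p) V]
    [Nontrivial V] (g : V →ₗ[ZMod p] V) (hg : g ^ p = 1) : ∃ x : V, x ≠ 0 ∧ g x = x := by
  classical
  have : CharP (Module.End (ZMod p) V) p :=
    charP_of_injective_algebraMap (algebraMap (ZMod p) (Module.End (ZMod p) V)).injective p
  have h1 : (g - 1) ^ p = 0 := by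
    rw [sub_pow_char_of_commute p (Commute.one_right g), hg, one_pow, sub_self]
  obtain ⟨x, hx⟩ := exists_ne (0 : V)
  have hex : ∃ k : ℕ, ((g - 1) ^ k : Module.End (ZMod p) V) x = 0 := ⟨p, by rw [h1]; rfl⟩
  have hk : ((g - 1) ^ (Nat.find hex)) x = 0 := Nat.find_spec hex
  have hk0 : Nat.find hex ≠ 0 := by
    intro h0
    rw [h0, pow_zero] at hk
    exact hx hk
  obtain ⟨m, hm⟩ := Nat.exists_eq_succ_of_ne_zero hk0
  refine ⟨((g - 1) ^ m) x, Nat.find_min hex (by omega : m < Nat.find hex), ?_⟩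
  have h2 : (g - 1) (((g - 1) ^ m) x) = 0 := by
    rw [← Module.End.mul_apply, ← pow_succ', ← Nat.succ_eq_add_one, ← hm]
    exact hk
  rw [LinearMap.sub_apply, Module.End.one_apply, sub_eq_zero] at h2
  exact h2

/-- a product over a finite set stable under an injective ring homomorphism is fixed. -/
theorem Moved_prod_fixed {K : Type*} [Field K] [DecidableEq K] (t : K →+* K) (s : Finset K)
    (hs : ∀ r ∈ s, t r ∈ s) : t (∏ r ∈ s, r) = ∏ r ∈ s, r := by
  have himg : s.image t = s := by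
    apply Finset.eq_of_subset_of_card_le
    · intro x hx
      obtain ⟨r, hr, rfl⟩ := Finset.mem_image.1 hx
      exact hs r hr
    · rw [Finset.card_image_of_injective _ t.injective]
  rw [map_prod]
  conv_rhs => rw [← himg]
  rw [Finset.prod_image (fun a _ b _ h => t.injective h)]

/-- `1 < c ^ n`, `c < 1` ⟹ `1 ≤ c * c ^ n`. -/
theorem Moved_zpow {Γ₀ : Type*} [LinearOrderedCommGroupWithZero Γ₀] {c : Γ₀} (hc0 : c ≠ 0)
    (hc1 : c < 1) {n : ℤ} (hn : 1 < c ^ n) : 1 ≤ c * c ^ n := by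
  have hneg : n < 0 := by
    by_contra hge
    obtain ⟨m, rfl⟩ := Int.eq_ofNat_of_zero_le (not_lt.1 hge)
    rw [zpow_natCast] at hn
    exact absurd (pow_le_one₀ zero_le hc1.le) (not_le.2 hn)
  obtain ⟨m, hm⟩ := Int.eq_ofNat_of_zero_le (by omega : 0 ≤ -(n + 1))
  have e : c * c ^ n = (c ^ m)⁻¹ := by
    rw [← zpow_one_add₀ hc0, ← zpow_natCast, ← zpow_neg, ← hm]
    congr 1
    ring
  rw [e]
  exact (one_le_inv₀ (zero_lt_iff.2 (pow_ne_zero _ hc0))).2 (pow_le_one₀ zero_le hc1.le)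

theorem exists_moved_not_inE1_aux (P : FreyPackage) (A : ValuationSubring Qb)
    (hA : A.LiesOverPrime P.p) (s₁ : GQ)
    (hmove : ∃ R : (P.freyCurve⁄Qb).Point, P.p • R = 0 ∧ s₁ • R ≠ R)
    (hpow : ∀ R : (P.freyCurve⁄Qb).Point, P.p • R = 0 → (s₁ ^ P.p) • R = R)
    (hnorm : ∀ t ∈ A.inertiaSubgroupIn ℚ, ∃ k : ℕ, ∀ R : (P.freyCurve⁄Qb).Point, P.p • R = 0 →
      (t⁻¹ * s₁ * t) • R = (s₁ ^ k) • R) :
    ∃ R : (P.freyCurve⁄Qb).Point, P.p • R = 0 ∧ ¬ InE1 A.valuation R ∧ s₁ • R ≠ R := by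
  have hp : P.p.Prime := P.pp
  have : Fact P.p.Prime := ⟨hp⟩
  have hp2 : P.p ≠ 2 := by have := P.hp5; omega
  obtain ⟨hb2, hb4, hb6, hb8⟩ := frey_integral_b P hp A hA
  have sadd : ∀ (t : GQ) (a b : (P.freyCurve⁄Qb).Point), t • (a + b) = t • a + t • b :=
    fun t a b => smul_add (A := (P.freyCurve⁄Qb).Point) t a b
  have szero : ∀ t : GQ, t • (0 : (P.freyCurve⁄Qb).Point) = 0 :=
    fun t => smul_zero (A := (P.freyCurve⁄Qb).Point) t
  have sneg : ∀ (t : GQ) (a : (P.freyCurve⁄Qb).Point), t • (-a) = -(t • a) :=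
    fun t a => smul_neg (A := (P.freyCurve⁄Qb).Point) t a
  have snsmul : ∀ (t : GQ) (n : ℕ) (a : (P.freyCurve⁄Qb).Point), t • (n • a) = n • (t • a) :=
    fun t n a => map_nsmul (DistribSMul.toAddMonoidHom (P.freyCurve⁄Qb).Point t) n a
  have smul' : ∀ (t u : GQ) (a : (P.freyCurve⁄Qb).Point), (t * u) • a = t • (u • a) :=
    fun t u a => mul_smul t u a
  have hnsmul : ∀ (t : GQ) (R : (P.freyCurve⁄Qb).Point), P.p • R = 0 → P.p • (t • R) = 0 := by
    intro t R hR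
    rw [← snsmul, hR, szero]
  -- the subgroup of fixed `p`-torsion points
  let L : AddSubgroup (P.freyCurve⁄Qb).Point :=
    { carrier := {R | P.p • R = 0 ∧ s₁ • R = R}
      zero_mem' := ⟨nsmul_zero _, szero _⟩
      add_mem' := fun {a b} ha hb => ⟨by rw [nsmul_add, ha.1, hb.1, add_zero],
        by rw [sadd, ha.2, hb.2]⟩
      neg_mem' := fun {a} ha => ⟨by rw [neg_nsmul, ha.1, _root_.neg_zero], by rw [sneg, ha.2]⟩ }
  have hLmem : ∀ R, R ∈ L ↔ P.p • R = 0 ∧ s₁ • R = R := fun _ => Iff.rfl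
  -- `L ≠ 0`
  have hL0 : ∃ R ∈ L, R ≠ 0 := by
    have := Fermat.Agent.S13.freyV_nontrivial P
    have hg : (galLin P s₁) ^ P.p = 1 := by
      ext z
      rw [Module.End.pow_apply, Module.End.one_apply]
      have h1 : (galLin P s₁ : FreyV P → FreyV P) = fun z => s₁ • z := rfl
      rw [h1, smul_iterate]
      exact hpow _ (nsmul_eq_zero P z)
    obtain ⟨z, hz0, hz⟩ := Moved_exists_fixed (galLin P s₁) hg
    refine ⟨(z : (P.freyCurve⁄Qb).Point), ⟨nsmul_eq_zero P z, ?_⟩, ?_⟩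
    · exact congrArg Subtype.val hz
    · intro h0
      exact hz0 (Subtype.ext h0)
  -- `L ≠ E[p]`
  have hL1 : ∃ R : (P.freyCurve⁄Qb).Point, P.p • R = 0 ∧ R ∉ L := by
    obtain ⟨R, hR, hsR⟩ := hmove
    exact ⟨R, hR, fun h => hsR h.2⟩
  -- `L` is stable under inertia
  have hLst : ∀ t ∈ A.inertiaSubgroupIn ℚ, ∀ R ∈ L, t • R ∈ L := by
    intro t ht R hR
    refine ⟨hnsmul t R hR.1, ?_⟩
    obtain ⟨k, hk⟩ := hnorm t ht
    have h1 : ∀ k : ℕ, (s₁ ^ k) • R = R := by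
      intro k
      induction k with
      | zero => rw [pow_zero]; exact one_smul GQ R
      | succ k ih => rw [pow_succ, smul', hR.2, ih]
    have h2 := hk R hR.1
    rw [h1 k, smul', smul'] at h2
    exact inv_smul_eq_iff.1 h2
  have hvp1 : A.valuation (P.p : Qb) < 1 := A.mem_nonunits_iff.1 hA
  have hvp0 : A.valuation (P.p : Qb) ≠ 0 :=
    (Valuation.ne_zero_iff _).2 (Fermat.Agent.S13.frey_p_cast_ne_zero P)
  have hprod : ∀ s : Finset Qb, (∀ r : Qb, r ∈ s ↔ ∃ R ∈ L, R ≠ 0 ∧ xc R = r) →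
      1 < A.valuation (∏ r ∈ s, r) →
      1 ≤ A.valuation (P.p : Qb) * A.valuation (∏ r ∈ s, r) := by
    intro s hs h1
    have hπ0 : (∏ r ∈ s, r) ≠ 0 := by
      intro h0
      rw [h0, _root_.map_zero] at h1
      exact not_lt.2 zero_le h1
    have hfix : ∀ t ∈ A.inertiaSubgroupIn ℚ, t (∏ r ∈ s, r) = ∏ r ∈ s, r := by
      intro t ht
      refine Moved_prod_fixed (t : Qb →+* Qb) s ?_
      intro r hr
      obtain ⟨R, hRL, hR0, rfl⟩ := (hs r).1 hr
      refine (hs _).2 ⟨t • R, hLst t ht R hRL, ?_, ?_⟩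
      · intro h0
        exact hR0 ((smul_eq_zero_iff_eq (β := (P.freyCurve⁄Qb).Point) t).1 h0)
      · exact xc_map P.freyCurve t R
    obtain ⟨n, hn⟩ := val_of_fixed_inertia A hp hA _ hπ0 hfix
    rw [hn] at h1 ⊢
    exact Moved_zpow hvp0 hvp1 h1
  obtain ⟨R₀, hR₀p, hR₀⟩ := exists_not_inE1 A.valuation (Fermat.Agent.S13.frey_Δ_ne_zero' P)
    hb2 hb4 hb6 hb8 hp hp2 (Fermat.Agent.S13.frey_p_cast_ne_zero P) L (fun R hR => hR.1) hL0 hL1
    hprod
  by_cases hs0 : s₁ • R₀ = R₀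
  · obtain ⟨R', hR'p, hsR'⟩ := hmove
    by_cases hR'1 : InE1 A.valuation R'
    · refine ⟨R' + R₀, by rw [nsmul_add, hR'p, hR₀p, add_zero], ?_, ?_⟩
      · intro h1
        apply hR₀
        have h2 := inE1_sub A.valuation hb2 hb4 hb6 hb8 h1 hR'1
        rwa [add_sub_cancel_left] at h2
      · rw [sadd, hs0]
        intro h1
        exact hsR' (add_right_cancel h1)
    · exact ⟨R', hR'p, hR'1, hsR'⟩
  · exact ⟨R₀, hR₀p, hR₀, hs0⟩

end Fermat.Agent.S44.ESide
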