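import Fermat.Agent.S44.ESide.Peu.Core
import Fermat.Agent.S44.ESide.Peu.Moved
import Fermat.Agent.S44.ESide.VG
import Fermat.Agent.S13.LocFrey
import Fermat.Agent.S13.LocAssembly
import Fermat.Agent.S36.Base.Residue

/-!
# S44 / ESide / Peu / Frey : E-PEU for the Frey curve at `p = P.p ∣ abc`

`E = P.freyCurve`, `A ∣ p`, `v = A.valuation`, `I = A.inertiaSubgroupIn ℚ`.

## `frey_centre_p`   (TASK `S44/E-Frey-Centre`, ~150 lines; copy from `S13/LocFrey.lean frey_inertia_sq`, which contains both `Centre`s)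
* `p ∣ a b`: `e = 0`, `κ = -(a^p) (2 m)` with `b^p = 32 m` (`S13.frey_32_dvd`), `β = b^p - a^p`, `c₁ = a b`:  `16 κ = - (a b)^p`, `v 16 = 1`.
* `p ∤ a b`, `p ∣ c`: `e = a^p / 4`, `κ = (a c)^p / 16`, `β = a^p + c^p`, `c₁ = a c`.
Valuations of integers: `S05.val_algebraMap_int`, `val_algebraMap_int_eq_one`, `val_algebraMap_div` (`S05/Frey.lean`), `S05.val_int`.  `p ≥ 5`.

## `val_natCast_eq_one`, `exists_generic`   (TASK `S44/E-Frey-Gen`, ~100 lines)
* `val_natCast_eq_one`: `S05.val_int`.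
* `exists_generic`: the residue field `k_A` is algebraically closed (instance in `S36/Base/Residue.lean`), hence infinite (`IsAlgClosed.instInfinite`?/`Infinite` of alg. closed
  fields); choose a class outside the finite set of residues of the integral `r ∈ S` (`Infinite.exists_notMem_finset`), lift it to `x₀ ∈ A`
  (`IsLocalRing.residue_surjective`); `v (x₀ - r) = 1 ↔` the residue of `x₀ - r` is `≠ 0` (`A.valuation_lt_one_iff`, `IsLocalRing.residue_eq_zero_iff`).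

## `exists_moved_not_inE1`   (TASK `S44/E-Frey-Moved`, ~300 lines)
`L := {R : p • R = 0 ∧ s₁ • R = R}` (an `AddSubgroup`).
* `L ≠ 0`: on `V = FreyV P` (nontrivial: `S13.freyV_nontrivial`; `ZMod p`-module) `f := galLin P s₁ - 1` satisfies `f ^ p = (galLin P s₁) ^ p - 1 = 0`
  (`sub_pow_char_of_commute`-type lemma in the `ZMod p`-algebra `Module.End (ZMod p) V`, or directly: binomial coefficients `p ∣ choose p i`); a nilpotent
  endomorphism of a nonzero module has a nonzero kernel (take `R ≠ 0` and the last nonzero `f^k R`).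
* `L ≠ E[p]`: `hmove`.
* `L` is `I`-stable: `t ∈ I`, `R ∈ L`: `(t⁻¹ * s₁ * t) • R = s₁ ^ k • R = R`, so `s₁ • t • R = t • R`.
* `hprod`: the Finset `s` of the `xc R`, `R ∈ L \ 0`, is `I`-stable (`S05.xc_map`: `xc (t • R) = t (xc R)`), so `π = ∏ s` is fixed by `I` (as in `S13.Ladder.prod_mem_range_of_stable`);
  `val_of_fixed_inertia`: `v π = v p ^ n`; `1 < v π` and `v p < 1` force `n ≤ -1`, so `v p * v π = v p ^ (n+1) ≥ 1`.
* `exists_not_inE1` gives `R₀ ∈ E[p] \ E1`.  If `s₁ R₀ ≠ R₀`: done.  Otherwise take `R'` with `s₁ R' ≠ R'`; if `R' ∈ E1` replace it by `R' + R₀ ∉ E1` (`inE1_sub`).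
-/

set_option autoImplicit false

namespace Fermat.Agent.S44.ESide

open WeierstrassCurve WeierstrassCurve.Affine WeierstrassCurve.Affine.Point
open Fermat.Agent.S05 Fermat.Agent.S13.Loc
open Fermat.Agent.S13 (Qb GQ)

theorem frey_centre_p (P : FreyPackage) (hpabc : (P.p : ℤ) ∣ P.a * P.b * P.c)
    (A : ValuationSubring Qb) (hA : A.LiesOverPrime P.p) :
    ∃ e κ β c₁ : ℚ,
      Centre (P.freyCurve⁄Qb) (algebraMap ℚ Qb e) (algebraMap ℚ Qb κ) (algebraMap ℚ Qb β) ∧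
      A.valuation (algebraMap ℚ Qb e) ≤ 1 ∧ A.valuation (algebraMap ℚ Qb β) = 1 ∧ c₁ ≠ 0 ∧
      A.valuation (algebraMap ℚ Qb c₁) < 1 ∧
      A.valuation (algebraMap ℚ Qb κ) = A.valuation (algebraMap ℚ Qb c₁) ^ P.p := by
  have hℓ : P.p.Prime := P.pp
  have hqZ : Prime (P.p : ℤ) := Nat.prime_iff_prime_int.mp hℓ
  have hFLT : ((P.a : ℚ) ^ P.p + (P.b : ℚ) ^ P.p = (P.c : ℚ) ^ P.p) := by exact_mod_cast P.hFLT
  have hpow : ∀ z : ℤ, (P.p : ℤ) ∣ z ^ P.p ↔ (P.p : ℤ) ∣ z := fun z =>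
    ⟨fun h => hqZ.dvd_of_dvd_pow h, fun h => dvd_pow h P.hp0⟩
  have hq_2 : ¬ (P.p : ℤ) ∣ 2 := by
    intro h
    have h1 := Int.le_of_dvd (by norm_num) h
    have h2 : (5 : ℤ) ≤ (P.p : ℤ) := by exact_mod_cast P.hp5
    omega
  have hq_4 : ¬ (P.p : ℤ) ∣ 4 := by
    intro h
    have : (P.p : ℤ) ∣ 2 * 2 := by norm_num; exact h
    rcases hqZ.dvd_or_dvd this with h | h <;> exact hq_2 h
  have hq_16 : ¬ (P.p : ℤ) ∣ 16 := by
    intro h
    have : (P.p : ℤ) ∣ 4 * 4 := by norm_num; exact h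
    rcases hqZ.dvd_or_dvd this with h | h <;> exact hq_4 h
  by_cases hab : (P.p : ℤ) ∣ P.a * P.b
  · refine ⟨0, (((-(P.a * P.b) ^ P.p : ℤ) : ℚ) / ((16 : ℤ) : ℚ)),
      ((P.b ^ P.p - P.a ^ P.p : ℤ) : ℚ), ((P.a * P.b : ℤ) : ℚ), ?_, by simp, ?_, ?_, ?_, ?_⟩
    · apply centre_map
      · simp only [FreyPackage.freyCurve, WeierstrassCurve.b₂]; push_cast; ring
      · simp only [FreyPackage.freyCurve, WeierstrassCurve.b₄]; push_cast; ring
      · simp only [FreyPackage.freyCurve, WeierstrassCurve.b₂, WeierstrassCurve.b₄,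
          WeierstrassCurve.b₆]; ring
      · simp only [FreyPackage.freyCurve, WeierstrassCurve.b₂, WeierstrassCurve.b₄,
          WeierstrassCurve.b₆, WeierstrassCurve.b₈]; push_cast; ring
    · apply val_algebraMap_int_eq_one A hℓ hA
      intro h
      rcases hqZ.dvd_or_dvd hab with h' | h'
      · have h1 : (P.p : ℤ) ∣ P.b ^ P.p := by
          have := dvd_add h ((hpow _).mpr h')
          simpa using this
        exact not_dvd_two_of_gcd P.hgcdab hℓ h' ((hpow _).mp h1)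
      · have h1 : (P.p : ℤ) ∣ P.a ^ P.p := by
          have := dvd_sub ((hpow _).mpr h') h
          simpa using this
        exact not_dvd_two_of_gcd P.hgcdab hℓ ((hpow _).mp h1) h'
    · exact_mod_cast mul_ne_zero P.ha0 P.hb0
    · exact (val_algebraMap_int A hℓ hA _).2.mpr hab
    · rw [val_algebraMap_div A hℓ hA hq_16, ← map_pow, ← map_pow, Int.cast_neg, map_neg,
        Valuation.map_neg]
      push_cast
      rfl
  · have ha' : ¬ (P.p : ℤ) ∣ P.a := fun h => hab (dvd_mul_of_dvd_left h _)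
    have hcd : (P.p : ℤ) ∣ P.c := by
      rcases hqZ.dvd_or_dvd hpabc with h | h
      · exact absurd h hab
      · exact h
    refine ⟨(((P.a ^ P.p : ℤ) : ℚ) / ((4 : ℤ) : ℚ)),
      ((((P.a * P.c) ^ P.p : ℤ) : ℚ) / ((16 : ℤ) : ℚ)),
      ((P.a ^ P.p + P.c ^ P.p : ℤ) : ℚ), ((P.a * P.c : ℤ) : ℚ), ?_, ?_, ?_, ?_, ?_, ?_⟩
    · apply centre_map
      · simp only [FreyPackage.freyCurve, WeierstrassCurve.b₂]; push_cast
        linear_combination (-1 : ℚ) * hFLT
      · simp only [FreyPackage.freyCurve, WeierstrassCurve.b₂, WeierstrassCurve.b₄]; push_cast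
        rw [mul_pow]
        linear_combination (-(P.a : ℚ) ^ P.p / 8) * hFLT
      · simp only [FreyPackage.freyCurve, WeierstrassCurve.b₂, WeierstrassCurve.b₄,
          WeierstrassCurve.b₆]; push_cast
        ring
      · simp only [FreyPackage.freyCurve, WeierstrassCurve.b₂, WeierstrassCurve.b₄,
          WeierstrassCurve.b₆, WeierstrassCurve.b₈]; push_cast
        rw [mul_pow, ← hFLT]
        ring
    · rw [val_algebraMap_div A hℓ hA hq_4]; exact (val_algebraMap_int A hℓ hA _).1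
    · apply val_algebraMap_int_eq_one A hℓ hA
      intro h
      have h1 : (P.p : ℤ) ∣ P.a ^ P.p := by
        have := dvd_sub h ((hpow _).mpr hcd)
        simpa using this
      exact ha' ((hpow _).mp h1)
    · exact_mod_cast mul_ne_zero P.ha0 P.hc0
    · exact (val_algebraMap_int A hℓ hA _).2.mpr (dvd_mul_of_dvd_right hcd _)
    · rw [val_algebraMap_div A hℓ hA hq_16, ← map_pow, ← map_pow]
      push_cast
      rfl

theorem val_natCast_eq_one (A : ValuationSubring Qb) {p : ℕ} (hp : p.Prime)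
    (hA : A.LiesOverPrime p) (k : ℕ) (hk : ¬ p ∣ k) : A.valuation (k : Qb) = 1 := by
  obtain ⟨h1, h2⟩ := val_int A hp hA (k : ℤ)
  rw [Int.cast_natCast] at h1 h2
  exact le_antisymm h1 (not_lt.mp fun h => hk (Int.natCast_dvd_natCast.1 (h2.mp h)))

theorem exists_generic (A : ValuationSubring Qb) (S : Finset Qb) :
    ∃ x₀ : Qb, A.valuation x₀ ≤ 1 ∧ ∀ r ∈ S, A.valuation r ≤ 1 → A.valuation (x₀ - r) = 1 := by
  classical
  have hcl : IsAlgClosed (IsLocalRing.ResidueField A) :=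
    Fermat.Agent.S36.Base.isAlgClosed_residueField_of_isAlgClosed A
  have hinf : Infinite (IsLocalRing.ResidueField A) := inferInstance
  obtain ⟨c, hc⟩ := Infinite.exists_notMem_finset
    (S.image (fun r => if h : r ∈ A then IsLocalRing.residue A ⟨r, h⟩ else 0))
  obtain ⟨x, rfl⟩ := IsLocalRing.residue_surjective c
  refine ⟨x, A.valuation_le_one x, fun r hr hr1 => ?_⟩
  have hrA : r ∈ A := (A.valuation_le_one_iff r).1 hr1
  have hle : A.valuation ((x : Qb) - r) ≤ 1 := (A.valuation_le_one_iff _).2 (sub_mem x.2 hrA)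
  refine le_antisymm hle (not_lt.1 fun hlt => hc ?_)
  have h0 : IsLocalRing.residue A (x - ⟨r, hrA⟩) = 0 := by
    rw [IsLocalRing.residue_eq_zero_iff, A.valuation_lt_one_iff]
    exact hlt
  rw [map_sub, sub_eq_zero] at h0
  rw [h0]
  exact Finset.mem_image.2 ⟨r, hr, by rw [dif_pos hrA]⟩

theorem exists_moved_not_inE1 (P : FreyPackage) (A : ValuationSubring Qb)
    (hA : A.LiesOverPrime P.p) (s₁ : GQ)
    (hmove : ∃ R : (P.freyCurve⁄Qb).Point, P.p • R = 0 ∧ s₁ • R ≠ R)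
    (hpow : ∀ R : (P.freyCurve⁄Qb).Point, P.p • R = 0 → (s₁ ^ P.p) • R = R)
    (hnorm : ∀ t ∈ A.inertiaSubgroupIn ℚ, ∃ k : ℕ, ∀ R : (P.freyCurve⁄Qb).Point, P.p • R = 0 →
      (t⁻¹ * s₁ * t) • R = (s₁ ^ k) • R) :
    ∃ R : (P.freyCurve⁄Qb).Point, P.p • R = 0 ∧ ¬ InE1 A.valuation R ∧ s₁ • R ≠ R := by
  exact exists_moved_not_inE1_aux P A hA s₁ hmove hpow hnorm

/-- **E-PEU.** -/
theorem epeu (P : FreyPackage) (hpabc : (P.p : ℤ) ∣ P.a * P.b * P.c)
    (A : ValuationSubring Qb) (hA : A.LiesOverPrime P.p) (s₁ : GQ)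
    (hs₁ : s₁ ∈ A.inertiaSubgroupIn ℚ)
    (hmove : ∃ R : (P.freyCurve⁄Qb).Point, P.p • R = 0 ∧ s₁ • R ≠ R)
    (hpow : ∀ R : (P.freyCurve⁄Qb).Point, P.p • R = 0 → (s₁ ^ P.p) • R = R)
    (hnorm : ∀ t ∈ A.inertiaSubgroupIn ℚ, ∃ k : ℕ, ∀ R : (P.freyCurve⁄Qb).Point, P.p • R = 0 →
      (t⁻¹ * s₁ * t) • R = (s₁ ^ k) • R) :
    ∃ a : Qb, a ∈ A ∧
      (∀ g : GQ, (∀ R : (P.freyCurve⁄Qb).Point, P.p • R = 0 → g • R = R) → g a = a) ∧
      A.valuation (P.p : Qb) ≤ A.valuation (s₁ a - a) ^ (P.p - 1) := by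
  have hp : P.p.Prime := P.pp
  haveI : Fact P.p.Prime := ⟨hp⟩
  have hp2 : P.p ≠ 2 := by have := P.hp5; omega
  obtain ⟨e, κ, β, c₁, hc, he, hβ, hc₁0, hc₁, hκ⟩ := frey_centre_p P hpabc A hA
  obtain ⟨R, hR, hR1, hsR⟩ := exists_moved_not_inE1 P A hA s₁ hmove hpow hnorm
  obtain ⟨ha1, ha2, ha3, ha4, ha6⟩ := frey_integral P hp A hA
  have hI := inert_of_mem_inertia P.freyCurve A s₁ hs₁
  have h2 : A.valuation (2 : Qb) = 1 := by
    have := val_natCast_eq_one A hp hA 2 (by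
      intro h
      have := Nat.le_of_dvd (by norm_num) h
      have := P.hp5
      omega)
    simpa using this
  have hc₁0' : algebraMap ℚ Qb c₁ ≠ 0 := by
    rwa [Ne, map_eq_zero]
  obtain ⟨a, ha, hform, hbound⟩ := peu_abs A.valuation (Fermat.Agent.S13.frey_Δ_ne_zero' P) hc
    ha1 ha2 ha3 ha4 ha6 he hβ h2 P.p hp2 (Fermat.Agent.S13.frey_p_cast_ne_zero P)
    (val_natCast_eq_one A hp hA) (exists_generic A) (algebraMap ℚ Qb c₁) hc₁0' hc₁ hκ hI
    (s₁.commutes e) (s₁.commutes c₁) hR hR1 hsR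
  refine ⟨a, (A.valuation_le_one_iff a).mp ha, ?_, hbound⟩
  intro g hg
  have hx : g (xc R) = xc R := by
    have h1 := xc_map P.freyCurve g R
    have h2 : Point.map (W' := P.freyCurve) g.toAlgHom R = R := hg R hR
    rw [h2] at h1
    exact h1.symm
  rcases hform with rfl | ⟨j, rfl⟩
  · exact hx
  · rw [map_div₀, map_sub, map_pow, hx, g.commutes, g.commutes]

end Fermat.Agent.S44.ESide
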